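/-
GATE-K / S35 (helper40): **`Σ ≠ ∅` from the special-fibre facts**, EXPORTED.

`nonempty_nodes_of_fibre` : the hypotheses of helper56's `Modular.nonempty_ssPackage_fibre`
(`GK/SS/ModularFibre.lean`) give `Nonempty ↥(nodes J')` — this is the `haveI : Nonempty ↥(nodes J')`
step INSIDE helper56's proof (helper39's `Conn.nonempty_of_chartPair`), as a standalone theorem (the
proof is helper56's, verbatim, minus the `ChartInput`).  It discharges the hypothesis `hconn` of
helper44's `Modular.frobSq_of_fibre` (`GK/SS/ModularFibreG1.lean`).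
-/
import Fermat.Agent.GK.SS.ModularFibre

set_option autoImplicit false
set_option linter.unusedSectionVars false
set_option linter.style.haveILetI false

noncomputable section

namespace Fermat.Agent.GK.S35.FibreFrob

open AlgebraicCurve IntermediateField Module IsLocalRing ModularCurve
open Fermat.Agent.S24 Fermat.Agent.S24_helper62 Fermat.Agent.RRh45 Fermat.Agent.RR
open Fermat.Agent.GJ.J1 Fermat.Agent.GJ.J1.Val Fermat.Agent.GJ.J1.InstGen
open Fermat.Agent.GJ.KumGroup Fermat.Agent.GJ.FF.PrincipalOf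
open Fermat.Agent.GK.AL Fermat.Agent.GK.MultiVal Fermat.Agent.GK.Core
open Fermat.Agent.GK.CuspSep Fermat.Agent.GK.SymChart Fermat.Agent.GK.SymDegree
open Fermat.Agent.GK.BallTwo Fermat.Agent.GK.Val.TwoVal Fermat.Agent.GK.PsiFN
open Fermat.Agent.GK.FrobGlue Fermat.Agent.GK.NodalBridge Fermat.Agent.GK.NodalGraded
open Fermat.Agent.GK.NodalPole Fermat.Agent.GK.PencilInf Fermat.Agent.GK.PencilInstS
open Fermat.Agent.GK.SS.TwoRed Fermat.Agent.GK.SS.FrobNodes Fermat.Agent.GK.SS.HTGlue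
open Fermat.Agent.GK.SS.CompRiemann Fermat.Agent.GK.Core.Twist Fermat.Agent.GK.Core.TwistNodal
open Fermat.Agent.GK.SS.Modular

variable {q : ℕ} (N : ℕ) [NeZero N] [NeZero q] (A : ValuationSubring Kbar) (h : ExactDvd q N)

variable {C : Type} [CommRing C] [Algebra (ResidueField A) C] [Algebra C (FresBar N A)]
  [IsScalarTower (ResidueField A) C (FresBar N A)]

set_option maxHeartbeats 1600000 in
/-- **`Σ ≠ ∅` at `F_N` from the special-fibre facts** (the connectedness step of helper56's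
`nonempty_ssPackage_fibre`, exported). -/
theorem nonempty_nodes_of_fibre (hA : A.LiesOverPrime q)
    [IsDedekindDomain C] (hCf : ¬ IsField C)
    (hinj : Function.Injective (algebraMap C (FresBar N A)))
    (hCreg : ∀ c : C, RegFin (ResidueField A) (tauF N A) (algebraMap C (FresBar N A) c))
    (hCrange : ∀ z : FresBar N A, RegFin (ResidueField A) (tauF N A) z →
      z ∈ Set.range (algebraMap C (FresBar N A)))
    (Ψ : C →ₐ[ResidueField A] C) (hΨpow : ∀ a, ∃ b, Ψ a = b ^ q)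
    (hΨ : ∀ c, algebraMap C (FresBar N A) (Ψ c) = psiFN N A h hA (algebraMap C (FresBar N A) c))
    (J' : Ideal C) (hfix : fixIdeal Ψ ≤ J')
    (hB : ∀ (x : FN N) (h1 : x ∈ (redDataBar N A).Rw) (h2 : x ∈ (redData2 N A h).Rw),
      RegFin Kbar (jF N) x →
      ∃ g g' : C, algebraMap C (FresBar N A) g = (redDataBar N A).red ⟨x, h1⟩ ∧
        algebraMap C (FresBar N A) g' = (redData2 N A h).red ⟨x, h2⟩ ∧ g - Ψ g' ∈ J')
    (hBsurj : ∀ g g' : C, g - Ψ g' ∈ J' →
      ∃ (x : FN N) (h1 : x ∈ (redDataBar N A).Rw) (h2 : x ∈ (redData2 N A h).Rw),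
        RegFin Kbar (jF N) x ∧ (redDataBar N A).red ⟨x, h1⟩ = algebraMap C (FresBar N A) g ∧
          (redData2 N A h).red ⟨x, h2⟩ = algebraMap C (FresBar N A) g')
    (mα mβ : ℕ)
    (hα : ∀ m : ℕ, mα ≤ m → ∀ y ∈ Lfib (ResidueField A) (tauF N A) (m : ℤ), ∃ x,
      ∃ hx : x ∈ (ballFN N A h).B,
      RegFin Kbar (jF N * jdF N q h.dvd)⁻¹ ((jF N)⁻¹ ^ m * x) ∧
        (ballFN N A h).red ⟨x, hx⟩ = (y, psiFN N A h hA y))
    (hβ : ∀ m : ℕ, mβ ≤ m → ∀ y ∈ Lfib (ResidueField A) (tauF N A) (m : ℤ), ∃ x,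
      ∃ hx : x ∈ (ballFN N A h).B,
      RegFin Kbar (jF N * jdF N q h.dvd)⁻¹ ((jdF N q h.dvd)⁻¹ ^ m * x) ∧
        (ballFN N A h).red ⟨x, hx⟩ = (psiFN N A h hA y, y)) :
    Nonempty ↥(nodes J') := by
  classical
  -- instances on the generic fibre
  haveI hgenK : IsGen Kbar (jF N) := isGen_jF N
  letI : FiniteResidues Kbar (FN N) := Fermat.Agent.GJ.FF.finiteResidues (jF N)
  letI : HasPrincipalDivisors Kbar (FN N) := hasPrincipalDivisors_gen (jF N)
  letI : Nonempty (Place Kbar (FN N)) := Fermat.Agent.GJ.FF.nonempty_place (jF N)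
  have H : Hyp Kbar (FN N) := hyp_of_isGen (jF N)
  -- instances on the special fibre
  haveI hgenk : IsGen (ResidueField A) (tauF N A) := isGen_tauF N A
  haveI : IsAlgClosed (ResidueField A) :=
    Fermat.Agent.GJ.ResidueAlgClosed.isAlgClosed_residueField A
  haveI : Infinite (ResidueField A) := IsAlgClosed.instInfinite
  letI : FiniteResidues (ResidueField A) (FresBar N A) :=
    Fermat.Agent.GJ.FF.finiteResidues (tauF N A)
  letI : HasPrincipalDivisors (ResidueField A) (FresBar N A) :=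
    hasPrincipalDivisors_gen (tauF N A)
  letI : Nonempty (Place (ResidueField A) (FresBar N A)) :=
    Fermat.Agent.GJ.FF.nonempty_place (tauF N A)
  have Hk : Hyp (ResidueField A) (FresBar N A) := hyp_of_isGen (tauF N A)
  -- the nodes
  have hq2 : 2 ≤ q := h.prime.two_le
  have hJ0 : J' ≠ ⊥ := fun h0 => fixIdeal_ne_bot Ψ hCf hq2 hΨpow (le_bot_iff.1 (h0 ▸ hfix))
  have hrad : J'.IsRadical := isRadical_of_fixIdeal_le Ψ hCf hq2 hΨpow hfix
  letI : Fintype ↥(nodes J') := (finite_nodes hCf hJ0).fintype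
  have hJ : ∀ c : C, c ∈ J' ↔ ∀ m ∈ nodes J', c ∈ m := by
    intro c
    conv_lhs => rw [eq_sInf_nodes hJ0 hrad]
    rw [Ideal.mem_sInf]
  have hk := nodes_rational N A (tauF N A) hinj hCf Ψ hfix
  -- the chart on the special fibre
  have hτ0 : tauF N A ≠ 0 := tauF_ne_zero N A
  have hs0 : tauF N A ^ (1 + q) ≠ 0 := pow_ne_zero _ hτ0
  have hstr : Transcendental (ResidueField A) (tauF N A ^ (1 + q)) :=
    (transcendental_tauF N A).pow (by omega)
  have hD : ExactPoles (tauF N A ^ (1 + q)) (Bound.poleDiv (ResidueField A) (tauF N A ^ (1 + q))) :=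
    exactPoles_poleDiv hs0
  have hregpow : ∀ x : FresBar N A, RegFin (ResidueField A) (tauF N A ^ (1 + q)) x ↔
      RegFin (ResidueField A) (tauF N A) x :=
    fun x => Fermat.Agent.GK.Red.regFin_pow_iff (by omega)
  have hC₁ : ∀ x : FresBar N A, RegFin (ResidueField A) (tauF N A ^ (1 + q)) x →
      x ∈ Set.range (algebraMap C (FresBar N A)) := fun x hx => hCrange x ((hregpow x).1 hx)
  obtain ⟨gτ, hgτ⟩ := hCrange (tauF N A) (regFin_self (tauF N A))
  have hgs : algebraMap C (FresBar N A) (gτ ^ (1 + q)) = tauF N A ^ (1 + q) := by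
    rw [map_pow, hgτ]
  obtain ⟨P, Q, hPinj, hQinj, hdP, hdQ, hD₁, hD₂, hTeq⟩ :=
    exists_places_T (Ψ := Ψ) (J' := J') (tauF N A) hinj hCf hfix hJ hC₁ hC₁ ⟨_, hgs⟩ ⟨_, hgs⟩ hD hD
  have hs : ((tauF N A ^ (1 + q), tauF N A ^ (1 + q)) : FresBar N A × FresBar N A) ∈
      T P Q (Bound.poleDiv (ResidueField A) (tauF N A ^ (1 + q)))
        (Bound.poleDiv (ResidueField A) (tauF N A ^ (1 + q))) 1 := by
    rw [← hTeq 1]
    have := mem_Tglue_of_regFin (Ψ := Ψ) (J' := J') (tauF N A) hD hD (n := 1)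
      (chart_sub_mem N A h hA hinj Ψ hΨ hfix hgτ)
      (by rw [hgs]; exact regFin_self _) (by rw [hgs]; exact regFin_self _)
      (by rw [hgs, pow_one, inv_mul_cancel₀ hs0]; exact regFin_one _)
      (by rw [hgs, pow_one, inv_mul_cancel₀ hs0]; exact regFin_one _)
    rwa [hgs] at this
  -- the chart on the generic fibre
  have ht1 := isGaussChart1_tS N A h hA
  have ht2 := isGaussChart2_tS N A h hA
  have hr1 : (redDataBar N A).red ⟨tS N h.dvd, ht1.1⟩ = tauF N A ^ (1 + q) := by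
    rw [red1_tS N A h hA, add_comm]
  have hr2 : (redData2 N A h).red ⟨tS N h.dvd, ht2.1⟩ = tauF N A ^ (1 + q) := by
    rw [red2_tS N A h hA, add_comm]
  have hD1' : ExactPoles ((redDataBar N A).red ⟨tS N h.dvd, ht1.1⟩)
      (Bound.poleDiv (ResidueField A) (tauF N A ^ (1 + q))) := by rw [hr1]; exact hD
  have hD2' : ExactPoles ((redData2 N A h).red ⟨tS N h.dvd, ht2.1⟩)
      (Bound.poleDiv (ResidueField A) (tauF N A ^ (1 + q))) := by rw [hr2]; exact hD
  have hs' : (((redDataBar N A).red ⟨tS N h.dvd, ht1.1⟩,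
      (redData2 N A h).red ⟨tS N h.dvd, ht2.1⟩) : FresBar N A × FresBar N A) ∈
      T P Q (Bound.poleDiv (ResidueField A) (tauF N A ^ (1 + q)))
        (Bound.poleDiv (ResidueField A) (tauF N A ^ (1 + q))) 1 := by rw [hr1, hr2]; exact hs
  haveI : FiniteDimensional Kbar⟮tS N h.dvd⟯ (FN N) := (isGen_tS N h.dvd).finite
  have hc := redCompatFN N A h
  have hne := Rw1_ne_Rw2 N A h hA
  have hdeg := hdeg_tS_le N A h hA
  have hti1 := inv_tS_mem_Rw1 N A h hA
  have hti2 := inv_tS_mem_Rw2 N A h hA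
  have htK := transcendental_tS N h.dvd
  have hB' : ∀ (x : FN N) (h1 : x ∈ (redDataBar N A).Rw) (h2 : x ∈ (redData2 N A h).Rw),
      RegFin Kbar (tS N h.dvd) x →
      ∃ g g' : C, algebraMap C (FresBar N A) g = (redDataBar N A).red ⟨x, h1⟩ ∧
        algebraMap C (FresBar N A) g' = (redData2 N A h).red ⟨x, h2⟩ ∧ g - Ψ g' ∈ J' :=
    fun x h1 h2 hx => hB x h1 h2 ((regFin_tS_iff N h.dvd h.prime x).1 hx)
  have hT := hT_chartPair (tauF N A) hc hne ht1 ht2 hdeg hti1 hti2 Ψ J' hD1' hD2' hB' hTeq hs'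
  -- the node count
  have hfin : ∀ n, ∀ z ∈ T P Q (Bound.poleDiv (ResidueField A) (tauF N A ^ (1 + q)))
      (Bound.poleDiv (ResidueField A) (tauF N A ^ (1 + q))) n,
      z ∈ redAlg (ballFN N A h) (jF N * jdF N q h.dvd) := by
    intro n z hz
    rw [← hTeq n] at hz
    obtain ⟨-, -, g, g', hg, hg', hgg'⟩ := hz
    obtain ⟨x, h1, h2, hreg, e1, e2⟩ := hBsurj g g' hgg'
    refine ⟨x, (mem_ballFN N A h).2 ⟨h1, h2⟩, (regFin_tS_iff N h.dvd h.prime x).2 hreg, ?_⟩
    exact Prod.ext (e1.trans hg) (e2.trans hg')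
  obtain ⟨g', c0, hg', hg'eq, hdimT⟩ := Fermat.Agent.GK.NodesGeFN.exists_hdimT_FN N A h hA
    hPinj hQinj hdP hdQ hD₁ hD₂ hs mα mβ hα hβ hfin
  have hdimT' : ∀ n, c0 ≤ n →
      finrank (ResidueField A) ((chartPair hD1' hD2' hs').T n) + g' ≤
        n * finrank Kbar⟮tS N h.dvd⟯ (FN N) + 1 := by
    intro n hn
    rw [chartPair_T]
    exact (hdimT n hn).le
  exact Fermat.Agent.GK.SS.Conn.nonempty_of_chartPair (jF N) hc (hasOrthoBases_FN N A h hA)
      (rankOne_bar N A h hA) (mem_ball2.2 ⟨ht1.1, ht2.1⟩) htK hD1' hD2' hs'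
      (chartPair_s_eq ht1 ht2 hD1' hD2' hs' (mem_ball2.2 ⟨ht1.1, ht2.1⟩))
      (hunit_chartPair ht1 ht2 hD1' hD2' hs') (hTfin_chartPair hD1' hD2' hs') hT g' c0 hg' hdimT'

end Fermat.Agent.GK.S35.FibreFrob
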