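/-
GATE-K / S35 (helper40): **the Frobenius block of the special fibre is FREE** in the abstract-`C`
setting of helper56's `nonempty_ssPackage_of_fibre` (`GK/SS/ModularFibre.lean`).

Setting: `q ∥ N`, `A` over `q`, `C` a `k`-algebra with `Algebra C (FresBar N A)`, injective
(`hinj`), with image the integral closure of `k[τ]` (`hCreg`, `hCrange`), `Ψ : C →ₐ[k] C`
compatible with `psiFN` (`hΨ`), `J'` an ideal with **N6** `hB`, `hBsurj`
(`B~ = gluedAlg Ψ J'`).  NOTHING else.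

For `σ ∈ D(A)`:
* `liftRes σ : C → C` : the unique lift of the coefficientwise action `resFres N A σ _`
  (`algebraMap_liftRes`);
* `liftRes_mem_gluedAlg` : `z ∈ gluedAlg Ψ J' ⟹ (liftRes σ z.1, liftRes σ z.2) ∈ gluedAlg Ψ J'`
  (Galois stability of `B = {x ∈ Rw₁ ⊓ Rw₂ | RegFin ℚ̄ j x}` and `red_i (σ x) = resFres σ (red_i x)`).
For a Frobenius `φ` at `A`:
* `psi_liftRes` : `Ψ (liftRes φ a) = a ^ q`  (`hΨS`);
* `psi_eq_pow_liftRes_inv` : `Ψ d = (liftRes φ⁻¹ d) ^ q`;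
* `psi_map_mem` : `Ψ J' ⊆ J'`  (`hΨJ`);
* **`exists_frobBlock`** : `∃ S : C → C, (∀ a, Ψ (S a) = a ^ q) ∧ (∀ r, algebraMap C _ (S r) =
  resFres N A φ _ (algebraMap C _ r)) ∧ ∀ d ∈ J', Ψ d ∈ J'` — the complete Frobenius block of
  `frob_sq_of_frobNodes` / `frobSq_of_fibre`.  So (G1) needs NO hypothesis beyond those of
  `nonempty_ssPackage_of_fibre` and `A.IsFrobeniusAt φ q`.
-/
import Fermat.Agent.GK.SS.FrobTauFN
import Fermat.Agent.GK.QS.BTildeGal
import Fermat.Agent.GK.SS.FrobNodesSymm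

set_option autoImplicit false
set_option linter.unusedSectionVars false

noncomputable section

namespace Fermat.Agent.GK.S35.FibreFrob

open HahnSeries ModularCurve IsLocalRing
open Fermat.Agent.S24 Fermat.Agent.GJ.J1 Fermat.Agent.GJ.J1.Val Fermat.Agent.GJ.Kum
open Fermat.Agent.GK.AL Fermat.Agent.GK.CuspSep Fermat.Agent.GK.PsiFN Fermat.Agent.GK.SS
open Fermat.Agent.GK.FrobGlue

variable {q : ℕ} (N : ℕ) [NeZero N] [NeZero q] (A : ValuationSubring Kbar) (h : ExactDvd q N)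
  (hA : A.LiesOverPrime q)

/-- the Galois action preserves regularity off the cusps (any level) -/
theorem regFin_galF_jF (σ : Kbar ≃ₐ[ℚ] Kbar) {x : FN N} (hx : RegFin Kbar (jF N) x) :
    RegFin Kbar (jF N) (galF N σ x) :=
  Fermat.Agent.GK.QS.regFin_map_of_semilinear
    ((galF N σ : FN N ≃+* FN N) : FN N →+* FN N) σ (fun c => galF_algebraMap σ c)
    (by
      show galF N σ (jF N) = jF N
      rw [jF_eq_gen, galF_gen]) hx

variable {C : Type} [CommRing C] [Algebra (ResidueField A) C] [Algebra C (FresBar N A)]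
  [IsScalarTower (ResidueField A) C (FresBar N A)]
  (hinj : Function.Injective (algebraMap C (FresBar N A)))
  (hCreg : ∀ c : C, RegFin (ResidueField A) (tauF N A) (algebraMap C (FresBar N A) c))
  (hCrange : ∀ z : FresBar N A, RegFin (ResidueField A) (tauF N A) z →
    z ∈ Set.range (algebraMap C (FresBar N A)))

/-- **the lift to `C` of the coefficientwise action of `σ ∈ D(A)`** -/
def liftRes (σ : Kbar ≃ₐ[ℚ] Kbar) (hσ : σ ∈ A.decompositionSubgroup ℚ) : C → C :=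
  fun c => (hCrange _ (regFin_resFres N A σ hσ (hCreg c))).choose

theorem algebraMap_liftRes (σ : Kbar ≃ₐ[ℚ] Kbar) (hσ : σ ∈ A.decompositionSubgroup ℚ) (c : C) :
    algebraMap C (FresBar N A) (liftRes N A hCreg hCrange σ hσ c) =
      resFres N A σ hσ (algebraMap C (FresBar N A) c) :=
  (hCrange _ (regFin_resFres N A σ hσ (hCreg c))).choose_spec

include hinj in
theorem liftRes_zero (σ : Kbar ≃ₐ[ℚ] Kbar) (hσ : σ ∈ A.decompositionSubgroup ℚ) :
    liftRes N A hCreg hCrange σ hσ 0 = 0 := by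
  apply hinj
  rw [algebraMap_liftRes, map_zero, map_zero]

variable (Ψ : C →ₐ[ResidueField A] C)
  (hΨ : ∀ c, algebraMap C (FresBar N A) (Ψ c) = psiFN N A h hA (algebraMap C (FresBar N A) c))

include hinj hΨ in
/-- **`Ψ (φ~ a) = a ^ q`** for a Frobenius `φ` at `A` -/
theorem psi_liftRes {φ : Kbar ≃ₐ[ℚ] Kbar} (hφ : A.IsFrobeniusAt φ q) (a : C) :
    Ψ (liftRes N A hCreg hCrange φ hφ.mem_decompositionSubgroup a) = a ^ q := by
  apply hinj
  rw [hΨ, algebraMap_liftRes, psiFN_resFres N A h hA hφ, map_pow]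

include hinj hΨ in
/-- **`Ψ d = (φ⁻¹~ d) ^ q`** for a Frobenius `φ` at `A` -/
theorem psi_eq_pow_liftRes_inv {φ : Kbar ≃ₐ[ℚ] Kbar} (hφ : A.IsFrobeniusAt φ q) (d : C) :
    Ψ d = liftRes N A hCreg hCrange φ⁻¹ (inv_mem hφ.mem_decompositionSubgroup) d ^ q := by
  apply hinj
  rw [hΨ, map_pow, algebraMap_liftRes, psiFN_eq_pow_resFres_inv N A h hA hφ]

variable (J' : Ideal C)
  (hB : ∀ (x : FN N) (h1 : x ∈ (redDataBar N A).Rw) (h2 : x ∈ (redData2 N A h).Rw),
    RegFin Kbar (jF N) x →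
    ∃ g g' : C, algebraMap C (FresBar N A) g = (redDataBar N A).red ⟨x, h1⟩ ∧
      algebraMap C (FresBar N A) g' = (redData2 N A h).red ⟨x, h2⟩ ∧ g - Ψ g' ∈ J')
  (hBsurj : ∀ g g' : C, g - Ψ g' ∈ J' →
    ∃ (x : FN N) (h1 : x ∈ (redDataBar N A).Rw) (h2 : x ∈ (redData2 N A h).Rw),
      RegFin Kbar (jF N) x ∧ (redDataBar N A).red ⟨x, h1⟩ = algebraMap C (FresBar N A) g ∧
        (redData2 N A h).red ⟨x, h2⟩ = algebraMap C (FresBar N A) g')

include hinj hB hBsurj in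
/-- **the glueing is stable under the decomposition group** -/
theorem liftRes_mem_gluedAlg {σ : Kbar ≃ₐ[ℚ] Kbar} (hσ : σ ∈ A.decompositionSubgroup ℚ)
    {z : C × C} (hz : z ∈ gluedAlg Ψ J') :
    ((liftRes N A hCreg hCrange σ hσ z.1, liftRes N A hCreg hCrange σ hσ z.2) : C × C) ∈
      gluedAlg Ψ J' := by
  rw [mem_gluedAlg] at hz
  obtain ⟨x, h1, h2, hreg, e1, e2⟩ := hBsurj z.1 z.2 hz
  have h1' : galF N σ x ∈ (redDataBar N A).Rw := galF_mem_Rw1 hσ h1
  have h2' : galF N σ x ∈ (redData2 N A h).Rw := galF_mem_Rw2 hσ h2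
  obtain ⟨g, g', eg, eg', hgg⟩ := hB (galF N σ x) h1' h2' (regFin_galF_jF N σ hreg)
  have hg : g = liftRes N A hCreg hCrange σ hσ z.1 := by
    apply hinj
    rw [eg, algebraMap_liftRes, red1_galF hσ h1 h1', e1]
  have hg' : g' = liftRes N A hCreg hCrange σ hσ z.2 := by
    apply hinj
    rw [eg', algebraMap_liftRes, red2_galF hσ h2 h2', e2]
  rw [mk_mem_gluedAlg, ← hg, ← hg']
  exact hgg

include hinj hCreg hCrange hΨ hB hBsurj in
/-- **the node ideal is Frobenius stable**: `Ψ J' ⊆ J'` -/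
theorem psi_map_mem {φ : Kbar ≃ₐ[ℚ] Kbar} (hφ : A.IsFrobeniusAt φ q) :
    ∀ d ∈ J', Ψ d ∈ J' :=
  Fermat.Agent.GK.SS.FrobNodes.map_mem_of_symm Ψ J' (NeZero.ne q)
    (liftRes N A hCreg hCrange φ⁻¹ (inv_mem hφ.mem_decompositionSubgroup))
    (liftRes_zero N A hinj hCreg hCrange φ⁻¹ (inv_mem hφ.mem_decompositionSubgroup))
    (psi_eq_pow_liftRes_inv N A h hA hinj hCreg hCrange Ψ hΨ hφ)
    (fun _ hz => liftRes_mem_gluedAlg N A h hinj hCreg hCrange Ψ J' hB hBsurj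
      (inv_mem hφ.mem_decompositionSubgroup) hz)

include hinj hCreg hCrange hΨ hB hBsurj in
/-- **The complete Frobenius block of (G1), from the hypotheses of
`nonempty_ssPackage_of_fibre` alone.** -/
theorem exists_frobBlock {φ : Kbar ≃ₐ[ℚ] Kbar} (hφ : A.IsFrobeniusAt φ q) :
    ∃ S : C → C, (∀ a, Ψ (S a) = a ^ q) ∧
      (∀ r, algebraMap C (FresBar N A) (S r) =
        resFres N A φ hφ.mem_decompositionSubgroup (algebraMap C (FresBar N A) r)) ∧
      ∀ d ∈ J', Ψ d ∈ J' :=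
  ⟨liftRes N A hCreg hCrange φ hφ.mem_decompositionSubgroup,
    psi_liftRes N A h hA hinj hCreg hCrange Ψ hΨ hφ,
    algebraMap_liftRes N A hCreg hCrange φ hφ.mem_decompositionSubgroup,
    psi_map_mem N A h hA hinj hCreg hCrange Ψ hΨ J' hB hBsurj hφ⟩

end Fermat.Agent.GK.S35.FibreFrob
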