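import Mathlib

set_option autoImplicit false

/-!
# GATE-K / S35 (helper82): the ABSTRACT GATE LEMMA

Pure algebra (additive groups and endomorphisms).  `V = Kum_m(F_M)`, `V' = Kum_m(F_{N'})`
(`M = N' q`), `aL = α_*`, `aU = α^*`, `W` the Atkin–Lehner involution (so `β_* = α_* ∘ W`),
`U = U_q`, `φ` a Frobenius lift at `q`, `r1` the reduction for the first Gauss valuation
(`r2 = r1 ∘ W`), `t` a Hecke element which kills level `N'`.

Inputs: the trace relation `α^* α_* = 1 + U W` (KU-TR), the `U_q`-Kronecker congruence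
`r1 ∘ U = r1 ∘ φ`, and `φ² = q²` on `ker r1 ∩ ker r2` (the toric part).  Output:

`t · (φ² − 1)(φ² − q²) = 0` on `V`.
-/

namespace Fermat.Agent.GK.S35

variable {V V' R : Type*} [AddCommGroup V] [AddCommGroup V'] [AddCommGroup R]

section New

variable (aL : V →+ V') (aU : V' →+ V) (W U : V →+ V)

/-- on `ker α_*`, `U W = -1` -/
theorem U_W_eq_neg (hTR : ∀ x, aU (aL x) = x + U (W x)) {y : V} (h1 : aL y = 0) :
    U (W y) = -y := by
  have h := hTR y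
  rw [h1, map_zero] at h
  exact (neg_eq_of_add_eq_zero_right h.symm).symm

/-- on `ker β_* = ker (α_* ∘ W)`, `U = -W` -/
theorem U_eq_neg_W (hTR : ∀ x, aU (aL x) = x + U (W x)) (hWW : ∀ x, W (W x) = x) {y : V}
    (h2 : aL (W y) = 0) : U y = -W y := by
  have h := U_W_eq_neg aL aU W U hTR h2
  rwa [hWW] at h

/-- on the new part `ker α_* ∩ ker β_*`, `U² = 1` -/
theorem U_U_eq (hTR : ∀ x, aU (aL x) = x + U (W x)) (hWW : ∀ x, W (W x) = x) {y : V}
    (h1 : aL y = 0) (h2 : aL (W y) = 0) : U (U y) = y := by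
  rw [U_eq_neg_W aL aU W U hTR hWW h2, map_neg, U_W_eq_neg aL aU W U hTR h1, neg_neg]

/-- on the new part, `W U = U W` -/
theorem W_U_eq (hTR : ∀ x, aU (aL x) = x + U (W x)) (hWW : ∀ x, W (W x) = x) {y : V}
    (h1 : aL y = 0) (h2 : aL (W y) = 0) : W (U y) = U (W y) := by
  rw [U_eq_neg_W aL aU W U hTR hWW h2, map_neg, hWW, U_W_eq_neg aL aU W U hTR h1]

end New

/-- **The abstract S35 gate**: `(φ² − q²)(φ² − 1)` kills the new part. -/
theorem gate_new (aL : V →+ V') (aU : V' →+ V) (W U φ : V →+ V) (r1 : V →+ R) (q : ℤ)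
    (hTR : ∀ x, aU (aL x) = x + U (W x))
    (hWW : ∀ x, W (W x) = x)
    (hWφ : ∀ x, W (φ x) = φ (W x))
    (hUφ : ∀ x, U (φ x) = φ (U x))
    (hb : ∀ x, r1 (U x) = r1 (φ x))
    (hK : ∀ z, r1 z = 0 → r1 (W z) = 0 → φ (φ z) = (q ^ 2) • z)
    {y : V} (h1 : aL y = 0) (h2 : aL (W y) = 0) :
    φ (φ (φ (φ y))) - (q ^ 2 + 1) • φ (φ y) + (q ^ 2) • y = 0 := by
  have hUU := U_U_eq aL aU W U hTR hWW h1 h2
  have hWU := W_U_eq aL aU W U hTR hWW h1 h2
  -- `z := U y - φ y` lies in `ker r1 ∩ ker r2`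
  have hz1 : r1 (U y - φ y) = 0 := by rw [map_sub, hb, sub_self]
  have hz2 : r1 (W (U y - φ y)) = 0 := by
    rw [map_sub, hWU, hWφ, map_sub, hb, sub_self]
  have hz := hK _ hz1 hz2
  -- `(*)` : `U A - φ A = q² U y - q² φ y`, `A = φ φ y`
  have hstar : φ (φ (U y)) - φ (φ (φ y)) = (q ^ 2) • U y - (q ^ 2) • φ y := by
    rw [← smul_sub, ← hz, map_sub, map_sub]
  -- apply `U`
  have e1 : φ (φ y) - φ (φ (φ (U y))) = (q ^ 2) • y - (q ^ 2) • φ (U y) := by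
    have h := congrArg U hstar
    simp only [map_sub, map_zsmul, hUφ, hUU] at h
    exact h
  -- apply `φ`
  have e2 : φ (φ (φ (U y))) - φ (φ (φ (φ y))) = (q ^ 2) • φ (U y) - (q ^ 2) • φ (φ y) := by
    have h := congrArg φ hstar
    rwa [map_sub, map_sub, map_zsmul, map_zsmul] at h
  -- add
  have e3 : φ (φ y) - φ (φ (φ (φ y))) = (q ^ 2) • y - (q ^ 2) • φ (φ y) := by
    have h := congrArg₂ (fun a b : V => a + b) e1 e2
    rw [sub_add_sub_cancel, sub_add_sub_cancel] at h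
    exact h
  rw [add_smul, one_smul]
  have e4 : φ (φ (φ (φ y))) = φ (φ y) - ((q ^ 2) • y - (q ^ 2) • φ (φ y)) := by
    rw [← e3]; abel
  rw [e4]; abel

/-- **The abstract S35 gate, with the Hecke element `t`.** -/
theorem gate_abs (aL : V →+ V') (aU : V' →+ V) (W U φ t : V →+ V) (r1 : V →+ R) (q : ℤ)
    (hTR : ∀ x, aU (aL x) = x + U (W x))
    (hWW : ∀ x, W (W x) = x)
    (hWφ : ∀ x, W (φ x) = φ (W x))
    (hUφ : ∀ x, U (φ x) = φ (U x))
    (hb : ∀ x, r1 (U x) = r1 (φ x))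
    (hK : ∀ z, r1 z = 0 → r1 (W z) = 0 → φ (φ z) = (q ^ 2) • z)
    (ht : ∀ x, aL (t x) = 0 ∧ aL (W (t x)) = 0) (x : V) :
    φ (φ (φ (φ (t x)))) - (q ^ 2 + 1) • φ (φ (t x)) + (q ^ 2) • t x = 0 :=
  gate_new aL aU W U φ r1 q hTR hWW hWφ hUφ hb hK (ht x).1 (ht x).2

end Fermat.Agent.GK.S35
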