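import Mathlib
import Fermat.Agent.GK.UTr.TRInst
import Fermat.Agent.GK.S35.GateAbs
import Fermat.Agent.GK.New.KillerDies
import Fermat.Agent.GK.Tate.S35Final

set_option autoImplicit false
set_option linter.style.haveILetI false
set_option linter.unusedSectionVars false

/-!
# GATE-K / S35 (helper82): the S35 gate from (G1)

Instantiation of the abstract gate lemma `gate_abs` on `V = Kum_m(F_{N' q})`:

* `α_* = aLow`, `α^* = aUp`, `W = autEnd (wAut h)`, `U = UEnd`, `φ = gal φ`, `r₁ = mk (kerRed)`;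
* (TR) `aUp_aLow_wAut`, (b) helper32's `UEnd_sub_gal_mem_kerRed`, (t) helper24's
  `exists_oldKiller_dies` (with `f = α_*` and `f = β_* = α_* ∘ W`, both Galois-equivariant);
* the ONLY remaining input is **(G1)**: `φ² = q²` on `ker r₁ ∩ ker r₂` (`G1`, `G1All`).

Output: `s35Gate_of_G1All : G1All → S35Final.S35Gate`, hence the frozen S35 by helper17's
`S35Final.s35_of_gate`.
-/

noncomputable section

namespace Fermat.Agent.GK.S35

open AlgebraicCurve ModularCurve Fermat.Agent.S24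
open Fermat.Agent.GJ Fermat.Agent.GJ.KumGroup Fermat.Agent.GJ.Kum.KumType
open Fermat.Agent.GK.UQ Fermat.Agent.GK.AL Fermat.Agent.GK.UqKronecker Fermat.Agent.GK.UTr
open Fermat.Agent.GK.Tate.KumHecke Fermat.Agent.GK.Tate.S35Top Fermat.Agent.GK.New
open CuspForm

local notation "GQ" => (AlgebraicClosure ℚ ≃ₐ[ℚ] AlgebraicClosure ℚ)

/-- **(G1)** at `(N, q ∥ N, m, A ∣ q, φ)`: `φ² = q²` on `ker r₁ ∩ ker r₂ ⊆ Kum_m(F_N)`. -/
def G1 (N : ℕ) [NeZero N] {q : ℕ} (h : ExactDvd q N) (m : ℕ)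
    (A : ValuationSubring (AlgebraicClosure ℚ)) (φ : GQ) : Prop :=
  ∀ x : Additive (Kum Kb (FK N) m), x ∈ kerRed N A m → x ∈ kerRed₂ h A m →
    gal N m φ (gal N m φ x) = (q ^ 2) • x

/-- **(G1) everywhere**: the one geometric input of S35 which is not yet a theorem. -/
def G1All : Prop :=
  ∀ (N : ℕ) [NeZero N] (q : ℕ) (h : ExactDvd q N) (lam : ℕ), lam.Prime → q ≠ lam → ∀ (n : ℕ)
    (A : ValuationSubring (AlgebraicClosure ℚ)), A.LiesOverPrime q →
    ∀ φ : GQ, A.IsFrobeniusAt φ q → G1 N h (lam ^ n) A φ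

section EndGate

variable {N' q : ℕ} [NeZero N'] [Fact q.Prime] (h : ExactDvd q (N' * q)) (m : ℕ)

/-- **the End-form gate** on `Kum_m(F_{N' q})`: `(φ⁴ − (q² + 1) φ² + q²) ∘ t = 0` for every
endomorphism `t` whose image dies under `α_*` and `β_*`. -/
theorem end_gate (A : ValuationSubring (AlgebraicClosure ℚ)) (hA : A.LiesOverPrime q) (φ : GQ)
    (hφ : A.IsFrobeniusAt φ q) (hG1 : G1 (N' * q) h m A φ)
    (t : Module.End (ZMod m) (Additive (Kum Kb (FK (N' * q)) m)))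
    (ht : ∀ x, haveI : NeZero q := ⟨(Fact.out : q.Prime).ne_zero⟩
      aLow N' q m (t x) = 0 ∧ bLow h m (t x) = 0)
    (x : Additive (Kum Kb (FK (N' * q)) m)) :
    gal (N' * q) m φ (gal (N' * q) m φ (gal (N' * q) m φ (gal (N' * q) m φ (t x))))
      - ((q : ℤ) ^ 2 + 1) • gal (N' * q) m φ (gal (N' * q) m φ (t x))
      + ((q : ℤ) ^ 2) • t x = 0 := by
  haveI : NeZero q := ⟨(Fact.out : q.Prime).ne_zero⟩
  have hqM : q ∣ N' * q := Dvd.intro_left N' rfl
  refine gate_abs (aLow N' q m).toAddMonoidHom (aUp N' q m).toAddMonoidHom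
    (autEnd (wAut h : FK (N' * q) ≃ₐ[Kb] FK (N' * q)) m).toAddMonoidHom
    (UEnd (N' * q) m hqM).toAddMonoidHom (gal (N' * q) m φ).toAddMonoidHom t.toAddMonoidHom
    (QuotientAddGroup.mk' (kerRed (N' * q) A m)) (q : ℤ) ?_ ?_ ?_ ?_ ?_ ?_ ?_ x
  · exact fun y => aUp_aLow_wAut h m y
  · exact fun y => autEnd_wAut_autEnd_wAut h m y
  · exact fun y => autEnd_wAut_gal h m φ y
  · intro y
    exact (LinearMap.congr_fun (UEnd_comm_gal m hqM φ) y).symm
  · intro y
    exact (QuotientAddGroup.eq_iff_sub_mem).2 (UEnd_sub_gal_mem_kerRed hqM hA hφ m y)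
  · intro z hz1 hz2
    have h1 : z ∈ kerRed (N' * q) A m := (QuotientAddGroup.eq_zero_iff z).1 hz1
    have h2 : z ∈ kerRed₂ h A m :=
      (mem_kerRed₂_iff h m z).2 ((QuotientAddGroup.eq_zero_iff _).1 hz2)
    have h3 := hG1 z h1 h2
    show gal (N' * q) m φ (gal (N' * q) m φ z) = ((q : ℤ) ^ 2) • z
    rw [h3, ← Nat.cast_pow, natCast_zsmul]
  · exact ht

end EndGate

section Gate

variable {N' q : ℕ} [NeZero N'] [Fact q.Prime] (h : ExactDvd q (N' * q))

theorem kumHeckeN_gal_apply (N : ℕ) [NeZero N] (S : Finset ℕ) (p : ℕ) [Fact p.Prime] (n : ℕ)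
    (t : heckeAlgebra N 2 (↑S : Set ℕ)) (σ : GQ) (k : Additive (Kum Kb (FK N) (p ^ n))) :
    kumHeckeN N S p n t (gal N (p ^ n) σ k) = gal N (p ^ n) σ (kumHeckeN N S p n t k) := by
  haveI : NeZero (p ^ n) := ⟨pow_ne_zero n (Fact.out : p.Prime).ne_zero⟩
  exact kumHecke_gal_apply N (↑S : Set ℕ) (p ^ n) _ t σ k

/-- **`SS35Gate` from (G1)** for a Hecke element `t` dying under every Galois-equivariant linear
map to level `N'` (helper24's `exists_oldKiller_dies`). -/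
theorem ss35Gate_of_G1 (S : Finset ℕ) (lam : ℕ) [Fact lam.Prime]
    (t : heckeAlgebra (N' * q) 2 (↑S : Set ℕ))
    (ht : ∀ (n : ℕ)
      (f : Additive (Kum Kb (FK (N' * q)) (lam ^ n)) →ₗ[ZMod (lam ^ n)]
        Additive (Kum Kb (FK N') (lam ^ n))),
      (∀ (σ : GQ) x, f (gal (N' * q) (lam ^ n) σ x) = gal N' (lam ^ n) σ (f x)) →
        ∀ x, f (kumHeckeN (N' * q) S lam n t x) = 0)
    (hG1 : ∀ A : ValuationSubring (AlgebraicClosure ℚ), A.LiesOverPrime q →
      ∀ φ : GQ, A.IsFrobeniusAt φ q → ∀ n, G1 (N' * q) h (lam ^ n) A φ) :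
    SS35Gate (N' * q) S lam q t := by
  haveI : NeZero q := ⟨(Fact.out : q.Prime).ne_zero⟩
  refine ss35Gate_of_end (N' * q) S lam q t fun A hA σ hσ n k => ?_
  have hTg := kumHeckeN_gal_apply (N' * q) S lam n t σ
  have key := end_gate h (lam ^ n) A hA σ hσ (hG1 A hA σ hσ n) (kumHeckeN (N' * q) S lam n t)
    (fun x => ⟨ht n (aLow N' q (lam ^ n)) (aLow_gal N' q (lam ^ n)) x,
      ht n (bLow h (lam ^ n)) (bLow_gal h (lam ^ n)) x⟩) k
  rw [map_mul]
  simp only [Module.End.mul_apply, map_add, map_sub, map_zsmul, hTg]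
  rw [add_comm (1 : ℤ)]
  exact key

end Gate

/-- **(G1) everywhere ⟹ the S35 gate** (hence the frozen S35 by `S35Final.s35_of_gate`). -/
theorem s35Gate_of_G1All (hG : G1All) : Fermat.Agent.GK.Tate.S35Final.S35Gate := by
  intro M _ g hg lam _ S chig hchig hlamS hMS q hq hqlam hqM hq2
  obtain ⟨N', rfl⟩ : ∃ N', M = N' * q := ⟨M / q, (Nat.div_mul_cancel hqM).symm⟩
  haveI : Fact q.Prime := ⟨hq⟩
  have hN'0 : N' ≠ 0 := by
    rintro rfl
    exact NeZero.ne (0 * q) (zero_mul q)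
  haveI : NeZero N' := ⟨hN'0⟩
  have h : ExactDvd q (N' * q) := ⟨hq, hqM, hq2⟩
  have hne : N' ≠ N' * q := by
    intro h1
    have h2 : N' * 1 = N' * q := by rw [mul_one]; exact h1
    have h3 := Nat.eq_of_mul_eq_mul_left (Nat.pos_of_ne_zero hN'0) h2
    exact hq.one_lt.ne h3
  obtain ⟨t, htχ, ht⟩ := exists_oldKiller_dies (N' := N') (Dvd.intro _ rfl) hne hg lam S chig
    hchig hlamS hMS
  exact ⟨t, htχ, ss35Gate_of_G1 h S lam t ht
    (fun A hA φ hφ n => hG (N' * q) q h lam Fact.out hqlam n A hA φ hφ)⟩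

end Fermat.Agent.GK.S35
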