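/-
GATE-K / S35, layer 3 (helper40): the S35 twin of helper56's `GK/SS/Modular.lean` +
`GK/SS/FibreFactsProof.lean`: **(G1) everywhere and the S35 gate are THEOREMS**.

* `FibreFrob.frobSq_fibre` : helper44's `Modular.frobSq_of_fibre` (`GK/SS/ModularFibreG1.lean`) with
  its extra hypotheses discharged — `hconn` by `FibreFrob.nonempty_nodes_of_fibre`
  (`GK/S35/FibreConn.lean`), the Frobenius block `hΨJ S hΨS hS` by `FibreFrob.exists_frobBlock`
  (`GK/S35/FibreFrobBlock.lean`): the hypotheses of helper56's `nonempty_ssPackage_fibre` +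
  `A.IsFrobeniusAt φ q` ⟹ (G1);
* `frobSq_mul` : (G1) at `(N' ℓ, ℓ, m, A, φ)` with the CONCRETE `C = CRing N' A`, `Ψ = psiC`, `J'` the
  node ideal of `B~ = BT N' ℓ A h` (exactly as in `Modular.nonempty_ssPackage_mul`);
* `frobSqAt_aux_of_fibreFacts` : `Modular.FibreFacts` ⟹ helper27's `FrobSqAux.FrobSqAt hN m` at all
  auxiliary levels;
* `g1All_of_fibreFacts : Modular.FibreFacts → G1All`, **`g1All : G1All`**;
* **`s35Gate : S35Final.S35Gate`**; so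
  `Fermat/Agent/S35.lean = S35Final.s35_of_gate Fermat.Agent.GK.S35.s35Gate …`.
-/
import Fermat.Agent.GK.SS.FibreFactsProof
import Fermat.Agent.GK.SS.ModularFibreG1
import Fermat.Agent.GK.S35.FibreConn
import Fermat.Agent.GK.S35.FibreFrobBlock
import Fermat.Agent.GK.S35.GateInst
import Fermat.Agent.GK.SS.FrobSqAux

set_option autoImplicit false
set_option linter.unusedSectionVars false
set_option linter.style.haveILetI false

noncomputable section

namespace Fermat.Agent.GK.S35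

open AlgebraicCurve IntermediateField Module IsLocalRing ModularCurve HahnSeries
open Fermat.Agent.S24 Fermat.Agent.S24_helper62
open Fermat.Agent.GJ.J1 Fermat.Agent.GJ.J1.Val
open Fermat.Agent.GJ.KumGroup Fermat.Agent.GJ.Kum.KumType Fermat.Agent.GK.Tate
open Fermat.Agent.GK.AL Fermat.Agent.GK.CuspSep Fermat.Agent.GK.BallTwo
open Fermat.Agent.GK.PsiFN Fermat.Agent.GK.PsiFNGood Fermat.Agent.GK.QS
open Fermat.Agent.GK.FrobGlue Fermat.Agent.GK.UqKronecker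
open Fermat.Agent.GK.SS.Modular

namespace FibreFrob

variable {q : ℕ} (N : ℕ) [NeZero N] [NeZero q] (A : ValuationSubring Kbar) (h : ExactDvd q N)

variable {C : Type} [CommRing C] [Algebra (ResidueField A) C] [Algebra C (FresBar N A)]
  [IsScalarTower (ResidueField A) C (FresBar N A)]

/-- **(G1) at `F_N`, `q ∥ N`, from the special-fibre facts alone**: the hypotheses of helper56's
`nonempty_ssPackage_fibre` and a Frobenius `φ` at `A`. -/
theorem frobSq_fibre (hA : A.LiesOverPrime q) {m : ℕ}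
    (hmk : ((m : ℕ) : ResidueField A) ≠ 0)
    [IsDedekindDomain C] (hCf : ¬ IsField C)
    (hinj : Function.Injective (algebraMap C (FresBar N A)))
    (hCreg : ∀ c : C, RegFin (ResidueField A) (tauF N A) (algebraMap C (FresBar N A) c))
    (hCrange : ∀ z : FresBar N A, RegFin (ResidueField A) (tauF N A) z →
      z ∈ Set.range (algebraMap C (FresBar N A)))
    (Ψ : C →ₐ[ResidueField A] C) (hΨpow : ∀ a, ∃ b, Ψ a = b ^ q)
    (hΨ : ∀ c, algebraMap C (FresBar N A) (Ψ c) = psiFN N A h hA (algebraMap C (FresBar N A) c))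
    (J' : Ideal C) (hfix : fixIdeal Ψ ≤ J')
    (hB : ∀ (x : FN N) (h1 : x ∈ (redDataBar N A).Rw) (h2 : x ∈ (redData2 N A h).Rw),
      RegFin Kbar (jF N) x →
      ∃ g g' : C, algebraMap C (FresBar N A) g = (redDataBar N A).red ⟨x, h1⟩ ∧
        algebraMap C (FresBar N A) g' = (redData2 N A h).red ⟨x, h2⟩ ∧ g - Ψ g' ∈ J')
    (hBsurj : ∀ g g' : C, g - Ψ g' ∈ J' →
      ∃ (x : FN N) (h1 : x ∈ (redDataBar N A).Rw) (h2 : x ∈ (redData2 N A h).Rw),
        RegFin Kbar (jF N) x ∧ (redDataBar N A).red ⟨x, h1⟩ = algebraMap C (FresBar N A) g ∧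
          (redData2 N A h).red ⟨x, h2⟩ = algebraMap C (FresBar N A) g')
    (mα mβ : ℕ)
    (hα : ∀ m : ℕ, mα ≤ m → ∀ y ∈ Lfib (ResidueField A) (tauF N A) (m : ℤ), ∃ x,
      ∃ hx : x ∈ (ballFN N A h).B,
      RegFin Kbar (jF N * jdF N q h.dvd)⁻¹ ((jF N)⁻¹ ^ m * x) ∧
        (ballFN N A h).red ⟨x, hx⟩ = (y, psiFN N A h hA y))
    (hβ : ∀ m : ℕ, mβ ≤ m → ∀ y ∈ Lfib (ResidueField A) (tauF N A) (m : ℤ), ∃ x,
      ∃ hx : x ∈ (ballFN N A h).B,
      RegFin Kbar (jF N * jdF N q h.dvd)⁻¹ ((jdF N q h.dvd)⁻¹ ^ m * x) ∧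
        (ballFN N A h).red ⟨x, hx⟩ = (psiFN N A h hA y, y))
    {φ : Kbar ≃ₐ[ℚ] Kbar} (hφ : A.IsFrobeniusAt φ q)
    (x : Additive (Kum Kbar (FN N) m)) (hx1 : x ∈ kerRed N A m) (hx2 : x ∈ kerRed₂ h A m) :
    gal N m φ (gal N m φ x) = (q ^ 2) • x := by
  obtain ⟨S, hΨS, hS, hΨJ⟩ :=
    exists_frobBlock N A h hA hinj hCreg hCrange Ψ hΨ J' hB hBsurj hφ
  exact frobSq_of_fibre N A h hA hmk hCf hinj hCreg hCrange Ψ hΨpow hΨ J' hfix hB hBsurj
    mα mβ hα hβ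
    (nonempty_nodes_of_fibre N A h hA hCf hinj hCreg hCrange Ψ hΨpow hΨ J' hfix hB hBsurj
      mα mβ hα hβ)
    hΨJ hφ S hΨS hS x ⟨hx1, hx2⟩

end FibreFrob

section Level

variable (N' : ℕ) [NeZero N'] (ℓ : ℕ) [Fact ℓ.Prime] [NeZero ℓ]
variable (A : ValuationSubring Kbar) (h : ExactDvd ℓ (N' * ℓ)) (hA : A.LiesOverPrime ℓ)

include hA in
set_option synthInstance.maxHeartbeats 400000 in
set_option maxHeartbeats 1600000 in
/-- **(G1) at level `N' ℓ`** from the special-fibre inputs of `Modular.nonempty_ssPackage_mul` and a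
Frobenius `φ` at `A`. -/
theorem frobSq_mul (hℓN : ¬ ℓ ∣ N') (h2 : ℓ = 2 → 3 ∣ N') (h3 : ℓ = 3 → 2 ∣ N')
    {m : ℕ} (hmk : ((m : ℕ) : ResidueField A) ≠ 0)
    [IsDedekindDomain (CRing N' A)] (hCf : ¬ IsField (CRing N' A))
    (hrange : ∀ x : BRing N' ℓ A h, rho1 N' ℓ A h x ∈ Set.range (cVal N' A) ∧
      rho2 N' ℓ A h x ∈ Set.range (cVal N' A))
    {φ : Kbar ≃ₐ[ℚ] Kbar} (hφ : A.IsFrobeniusAt φ ℓ)
    (x : Additive (Kum Kbar (FN (N' * ℓ)) m)) (hx1 : x ∈ kerRed (N' * ℓ) A m)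
    (hx2 : x ∈ kerRed₂ h A m) :
    gal (N' * ℓ) m φ (gal (N' * ℓ) m φ x) = (ℓ ^ 2) • x := by
  obtain ⟨J', hfix, hBT⟩ := exists_ideal_BT N' ℓ A h hℓN hA h2 h3
  obtain ⟨mα, hα⟩ := Fermat.Agent.GK.OldLiftsFN.exists_alpha_lifts_FN (N' * ℓ) A h hA
    (fun e => Dvd.dvd.mul_right (h2 e) ℓ) (fun e => Dvd.dvd.mul_right (h3 e) ℓ)
  obtain ⟨mβ, hβ⟩ := Fermat.Agent.GK.OldLiftsFN.exists_beta_lifts_FN (N' * ℓ) A h hA
    (fun e => Dvd.dvd.mul_right (h2 e) ℓ) (fun e => Dvd.dvd.mul_right (h3 e) ℓ)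
  letI : Algebra (CRing N' A) (FresBar (N' * ℓ) A) := (iC N' ℓ A h hA).toRingHom.toAlgebra
  haveI : IsScalarTower (ResidueField A) (CRing N' A) (FresBar (N' * ℓ) A) :=
    IsScalarTower.of_algebraMap_eq fun c => ((iC N' ℓ A h hA).commutes c).symm
  exact FibreFrob.frobSq_fibre (N' * ℓ) A h hA hmk hCf (iC_injective N' ℓ A h hA)
    (regFin_iC N' ℓ A h hA) (fun z hz => mem_range_iC N' ℓ A h hA hz)
    (psiC N' ℓ A hℓN hA) (exists_pow_eq_psiC N' ℓ A hℓN hA) (iC_psiC N' ℓ A h hA hℓN)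
    J' hfix (hB_of_range N' ℓ A h hA hℓN hBT hrange) (hBsurj_of_BT N' ℓ A h hA hℓN hBT)
    mα mβ hα hβ hφ x hx1 hx2

end Level

/-- **(G1) at the auxiliary levels** from the special-fibre inputs `Modular.FibreFacts` (the SAME
inputs as S34). -/
theorem frobSqAt_aux_of_fibreFacts (FF : FibreFacts) :
    ∀ (N : ℕ) [NeZero N] (q m : ℕ) (hN : ExactDvd q N), ¬ q ∣ m →
      (q = 2 → 3 ∣ N) → (q = 3 → 2 ∣ N) → Fermat.Agent.GK.SS.FrobSqAux.FrobSqAt hN m := by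
  intro N _ q m hN hqm h2 h3 A hA φ hφ x hx1 hx2
  have hq : q.Prime := hN.prime
  have hqN : q ∣ N := hN.dvd
  obtain ⟨N', rfl⟩ := exists_eq_mul_left_of_dvd hqN
  haveI : Fact q.Prime := ⟨hq⟩
  haveI : NeZero q := ⟨hq.ne_zero⟩
  have hN'0 : N' ≠ 0 := fun h0 => NeZero.ne (N' * q) (by rw [h0, zero_mul])
  haveI : NeZero N' := ⟨hN'0⟩
  have hqN' : ¬ q ∣ N' := not_dvd_good N' hN
  have hmk : ((m : ℕ) : ResidueField A) ≠ 0 := by
    haveI : CharP (ResidueField A) q := Fermat.Agent.GJ.J1.Val.charP_residue A hq hA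
    rw [Ne, CharP.cast_eq_zero_iff (ResidueField A) q]
    exact hqm
  have h2' : q = 2 → 3 ∣ N' := by
    intro e
    have h23 := h2 e
    rw [e] at h23
    exact (Nat.Coprime.dvd_of_dvd_mul_right (by norm_num) h23)
  have h3' : q = 3 → 2 ∣ N' := by
    intro e
    have h32 := h3 e
    rw [e] at h32
    exact (Nat.Coprime.dvd_of_dvd_mul_right (by norm_num) h32)
  obtain ⟨hDed, hCf, hrange⟩ := FF N' q A hN hA hqN' h2' h3'
  exact frobSq_mul N' q A hN hA hqN' h2' h3' hmk hCf hrange hφ x hx1 hx2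

/-- **(G1) everywhere from `Modular.FibreFacts`.** -/
theorem g1All_of_fibreFacts (FF : FibreFacts) : G1All := by
  intro N _ q h lam hlam hqlam n A hA φ hφ x hx1 hx2
  have hqm : ¬ q ∣ lam ^ n := fun hd =>
    hqlam ((Nat.prime_dvd_prime_iff_eq h.prime hlam).1 (h.prime.dvd_of_dvd_pow hd))
  exact Fermat.Agent.GK.SS.FrobSqAux.frobSqAt_of_aux (frobSqAt_aux_of_fibreFacts FF) N q
    (lam ^ n) h hqm A hA φ hφ x hx1 hx2

/-- **(G1) everywhere**: `φ² = q²` on `ker r₁ ∩ ker r₂ ⊆ Kum_{λⁿ}(F_N)` for every `q ∥ N`, `q ≠ λ`,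
`A` over `q`, `φ` a Frobenius at `A`. -/
theorem g1All : G1All := g1All_of_fibreFacts fibreFacts

/-- **the S35 gate from `Modular.FibreFacts`** (the special-fibre inputs of S34). -/
theorem s35Gate_of_fibreFacts (FF : FibreFacts) : Fermat.Agent.GK.Tate.S35Final.S35Gate :=
  s35Gate_of_G1All (g1All_of_fibreFacts FF)

/-- **The S35 gate.** -/
theorem s35Gate : Fermat.Agent.GK.Tate.S35Final.S35Gate := s35Gate_of_G1All g1All

end Fermat.Agent.GK.S35
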