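import Mathlib
import Fermat.Agent.GK.S35.GateInst
import Fermat.Agent.GK.SS.FrobSqAux

set_option autoImplicit false

/-!
# GATE-K / S35 (helper82): the S35 gate from (G1) at the AUXILIARY levels

helper27's `FrobSqAux.FrobSqAt hN m` is `∀ A φ, G1 N hN m A φ`; with his descent
`frobSqAt_of_aux` the whole frozen S35 follows from (G1) at the levels with
`(q = 2 → 3 ∣ N)`, `(q = 3 → 2 ∣ N)`:

* `g1All_of_frobSqAt`, `g1All_of_aux`;
* `s35Gate_of_aux : (∀ N q m hN, ¬ q ∣ m → (q = 2 → 3 ∣ N) → (q = 3 → 2 ∣ N) → FrobSqAt hN m) → S35Gate`.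
-/

namespace Fermat.Agent.GK.S35

open Fermat.Agent.GK.AL Fermat.Agent.GK.SS.FrobSqAux

theorem g1All_of_frobSqAt
    (hF : ∀ (N : ℕ) [NeZero N] (q m : ℕ) (hN : ExactDvd q N), ¬ q ∣ m → FrobSqAt hN m) :
    G1All := by
  intro N _ q h lam hlam hqlam n A hA φ hφ x hx1 hx2
  have hqm : ¬ q ∣ lam ^ n := fun hd =>
    hqlam ((Nat.prime_dvd_prime_iff_eq h.prime hlam).mp (h.prime.dvd_of_dvd_pow hd))
  exact hF N q (lam ^ n) h hqm A hA φ hφ x hx1 hx2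

theorem g1All_of_aux
    (hAux : ∀ (N : ℕ) [NeZero N] (q m : ℕ) (hN : ExactDvd q N), ¬ q ∣ m →
      (q = 2 → 3 ∣ N) → (q = 3 → 2 ∣ N) → FrobSqAt hN m) : G1All :=
  g1All_of_frobSqAt (frobSqAt_of_aux hAux)

/-- **the S35 gate from (G1) at the auxiliary levels** -/
theorem s35Gate_of_aux
    (hAux : ∀ (N : ℕ) [NeZero N] (q m : ℕ) (hN : ExactDvd q N), ¬ q ∣ m →
      (q = 2 → 3 ∣ N) → (q = 3 → 2 ∣ N) → FrobSqAt hN m) :
    Fermat.Agent.GK.Tate.S35Final.S35Gate :=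
  s35Gate_of_G1All (g1All_of_aux hAux)

end Fermat.Agent.GK.S35
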