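/-
GATE-K / S35, last link (helper40): helper82's `G1All` (`GK/S35/GateInst.lean`), hence the S35 gate
`S35Final.S35Gate`, from the special-fibre geometry `TSGeom` (helper44, `GK/SS/PackageTS.lean` —
the SAME target as S34's `ssGateAll_of_tsGeom`) together with its Frobenius symmetry `TSFrob`
(`GK/SS/FrobSqTS.lean`) at the auxiliary levels.

* `g1All_of_tsGeom` : `(∀ N q h m, q ∤ m → (q = 2 → 3 ∣ N) → (q = 3 → 2 ∣ N) → ∀ A hA φ hφ,
  ∃ G : TSGeom N A h hA m, Nonempty (TSFrob N A h G φ hφ)) → G1All`;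
* `s35Gate_of_tsGeom` : the same hypothesis gives `S35Final.S35Gate`; then
  `Fermat/Agent/S35.lean = S35Final.s35_of_gate (s35Gate_of_tsGeom tsGeomFrob) …`.
-/
import Fermat.Agent.GK.S35.GateInst
import Fermat.Agent.GK.SS.FrobSqTS

set_option autoImplicit false

namespace Fermat.Agent.GK.S35

open Fermat.Agent.GK.AL Fermat.Agent.GK.SS

/-- `ℚ̄`. -/
local notation "Qb" => AlgebraicClosure ℚ

/-- **(G1) everywhere from the special-fibre geometry and its Frobenius symmetry at the auxiliary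
levels.** -/
theorem g1All_of_tsGeom
    (hG : ∀ (N : ℕ) [NeZero N] (q : ℕ) [NeZero q] (h : ExactDvd q N) (m : ℕ), ¬ q ∣ m →
      (q = 2 → 3 ∣ N) → (q = 3 → 2 ∣ N) →
      ∀ (A : ValuationSubring Qb) (hA : A.LiesOverPrime q) (φ : Qb ≃ₐ[ℚ] Qb)
        (hφ : A.IsFrobeniusAt φ q),
        ∃ G : TSGeom N A h hA m, Nonempty (TSFrob N A h G φ hφ)) : G1All := by
  intro N _ q h lam hlam hqlam n A hA φ hφ x hx1 hx2
  have hqm : ¬ q ∣ lam ^ n := fun hd =>
    hqlam ((Nat.prime_dvd_prime_iff_eq h.prime hlam).1 (h.prime.dvd_of_dvd_pow hd))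
  exact frobSqAt_of_tsGeom hG N q (lam ^ n) h hqm A hA φ hφ x hx1 hx2

/-- **the S35 gate from the special-fibre geometry and its Frobenius symmetry.** -/
theorem s35Gate_of_tsGeom
    (hG : ∀ (N : ℕ) [NeZero N] (q : ℕ) [NeZero q] (h : ExactDvd q N) (m : ℕ), ¬ q ∣ m →
      (q = 2 → 3 ∣ N) → (q = 3 → 2 ∣ N) →
      ∀ (A : ValuationSubring Qb) (hA : A.LiesOverPrime q) (φ : Qb ≃ₐ[ℚ] Qb)
        (hφ : A.IsFrobeniusAt φ q),
        ∃ G : TSGeom N A h hA m, Nonempty (TSFrob N A h G φ hφ)) :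
    Fermat.Agent.GK.Tate.S35Final.S35Gate :=
  s35Gate_of_G1All (g1All_of_tsGeom hG)

end Fermat.Agent.GK.S35
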